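import Fermat.Agent.ArtinAlmostAll.Pairs

/-!
# Artin's conjecture for almost all bases (Stephens)

The variance over `a ≤ N` of the number of primes `p ≤ x` with the primitive root `a` is
`O (N x (1 + log x) + N x ^ (2 - κ))`, uniformly in `N ≥ x ^ ε`; Chebyshev's inequality does
the rest.
-/

set_option autoImplicit false

noncomputable section

namespace FA.ArtinAlmostAll

open Finset Filter FA.ArtinAverage
open FA.AlmostAllRoot (repCount)
open FA.ArtinHooley (artinConst artinConst_pos)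
open scoped Topology Classical

/-- The variance over the bases `a ≤ N`. -/
def baseVariance (x N : ℕ) : ℝ :=
  ∑ a ∈ Ioc 0 N, (∑ p ∈ primesTo x, (rootInd p a - genShare (p - 1))) ^ 2

/-- The pairs of distinct primes `≤ x`. -/
def distinctPairs (x : ℕ) : Finset (ℕ × ℕ) :=
  (primesTo x ×ˢ primesTo x).filter fun v => v.1 ≠ v.2

theorem sum_ite_dvd_le {p : ℕ} (N : ℕ) :
    ∑ a ∈ Ioc 0 N, (if p ∣ a then (1 : ℝ) else 0) ≤ (N : ℝ) / p := by
  rw [sum_boole, Nat.Ioc_filter_dvd_card_eq_div]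
  exact Nat.cast_div_le

theorem baseVariance_le (x N : ℕ) : baseVariance x N ≤
    N * (primesTo x).card + 2 * N * (1 + Real.log x) * (primesTo x).card +
      ∑ v ∈ distinctPairs x, |∑ a ∈ Ioc 0 N, rootResid v.1 a * rootResid v.2 a| := by
  obtain ⟨P, hP⟩ : ∃ P, P = primesTo x := ⟨_, rfl⟩
  obtain ⟨W, hW⟩ : ∃ W : ℕ × ℕ → ℝ, W = fun v => ∑ a ∈ Ioc 0 N,
      (rootInd v.1 a - genShare (v.1 - 1)) * (rootInd v.2 a - genShare (v.2 - 1)) := ⟨_, rfl⟩
  have hV : baseVariance x N = ∑ v ∈ P ×ˢ P, W v := by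
    rw [baseVariance, ← hP, hW, sum_comm]
    refine sum_congr rfl fun a _ => ?_
    rw [pow_two, sum_mul_sum, sum_product]
  rw [hV, ← sum_filter_add_sum_filter_not (P ×ˢ P) (fun v => v.1 = v.2),
    add_assoc ((N : ℝ) * (primesTo x).card)]
  refine add_le_add ?_ ?_
  · have hdiag : (P ×ˢ P).filter (fun v => v.1 = v.2) ⊆ P.image fun p => (p, p) := fun v hv => by
      rw [mem_filter, mem_product] at hv
      exact mem_image.2 ⟨v.1, hv.1.1, Prod.ext rfl hv.2⟩
    refine (sum_le_sum_of_subset_of_nonneg hdiag fun v hv _ => ?_).trans ?_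
    · obtain ⟨p, -, rfl⟩ := mem_image.1 hv
      rw [hW]
      exact sum_nonneg fun a _ => mul_self_nonneg _
    · refine (sum_le_card_nsmul _ _ (N : ℝ) fun v hv => ?_).trans ?_
      · obtain ⟨p, -, rfl⟩ := mem_image.1 hv
        rw [hW]
        refine (sum_le_card_nsmul _ _ (1 : ℝ) fun a _ => ?_).trans (by simp)
        have h := abs_le.1 (abs_sub_genShare_le p a)
        nlinarith
      · rw [nsmul_eq_mul, mul_comm, ← hP]
        exact mul_le_mul_of_nonneg_left (Nat.cast_le.2 card_image_le) (Nat.cast_nonneg _)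
  · have hb : ∀ v ∈ distinctPairs x, W v ≤ (N : ℝ) / v.1 + (N : ℝ) / v.2 +
        |∑ a ∈ Ioc 0 N, rootResid v.1 a * rootResid v.2 a| := by
      intro v _
      have h : W v - ∑ a ∈ Ioc 0 N, rootResid v.1 a * rootResid v.2 a ≤
          (N : ℝ) / v.1 + (N : ℝ) / v.2 := by
        rw [hW, ← sum_sub_distrib]
        refine (sum_le_sum fun a _ =>
          (le_abs_self _).trans (abs_pair_sub_le v.1 v.2 a)).trans ?_
        rw [sum_add_distrib]
        exact add_le_add (sum_ite_dvd_le N) (sum_ite_dvd_le N)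
      linarith [le_abs_self (∑ a ∈ Ioc 0 N, rootResid v.1 a * rootResid v.2 a)]
    rw [hP, show ((primesTo x ×ˢ primesTo x).filter fun v => ¬ v.1 = v.2) = distinctPairs x
      from rfl]
    refine (sum_le_sum hb).trans ?_
    rw [sum_add_distrib]
    refine add_le_add ?_ le_rfl
    refine (sum_le_sum_of_subset_of_nonneg (filter_subset _ _) fun v _ _ => by positivity).trans ?_
    rw [sum_product]
    simp only [sum_add_distrib, sum_const, nsmul_eq_mul, ← mul_sum]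
    have e : ∑ p ∈ primesTo x, (N : ℝ) / p ≤ N * (1 + Real.log x) := by
      simp only [div_eq_mul_one_div (N : ℝ), ← mul_sum]
      exact mul_le_mul_of_nonneg_left (sum_inv_primesTo_le x) (Nat.cast_nonneg _)
    have := mul_le_mul_of_nonneg_left e (Nat.cast_nonneg (α := ℝ) (primesTo x).card)
    linarith

theorem sum_moment_pairs_le (N k x : ℕ) {D : ℝ}
    (hD : ∀ n ∈ Ioc 0 (N ^ k), (repCount (Icc 1 N) k n : ℝ) ≤ D) :
    ∑ v ∈ distinctPairs x, charMoment (v.1 * v.2) N k ≤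
      2 * (((N : ℝ) ^ k + ((x * x : ℕ) : ℝ) * ((x * x : ℕ) : ℝ)) * (D * (N : ℝ) ^ k)) := by
  have half : ∀ s : Finset (ℕ × ℕ), s ⊆ distinctPairs x →
      Set.InjOn (fun v : ℕ × ℕ => v.1 * v.2) s →
      ∑ v ∈ s, charMoment (v.1 * v.2) N k ≤
        ((N : ℝ) ^ k + ((x * x : ℕ) : ℝ) * ((x * x : ℕ) : ℝ)) * (D * (N : ℝ) ^ k) := by
    intro s hs hinj
    rw [← sum_image (g := fun v : ℕ × ℕ => v.1 * v.2) (f := fun m => charMoment m N k) hinj]
    refine sum_charMoment_subset_le N k (x * x) (fun m hm => ?_) hD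
    obtain ⟨v, hv, rfl⟩ := mem_image.1 hm
    have h := hs hv
    rw [distinctPairs, mem_filter, mem_product, mem_primesTo, mem_primesTo] at h
    exact mem_Icc.2 ⟨Nat.mul_pos h.1.1.1.pos h.1.2.1.pos, Nat.mul_le_mul h.1.1.2 h.1.2.2⟩
  have key : ∀ v ∈ distinctPairs x, ∀ w ∈ distinctPairs x, v.1 * v.2 = w.1 * w.2 →
      (v.1 = w.1 ∧ v.2 = w.2) ∨ (v.1 = w.2 ∧ v.2 = w.1) := by
    intro v hv w hw h
    simp only [distinctPairs, mem_filter, mem_product, mem_primesTo] at hv hw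
    have h1 : v.1 ∣ w.1 * w.2 := h ▸ dvd_mul_right _ _
    rcases hv.1.1.1.dvd_mul.1 h1 with h2 | h2
    · have e := (Nat.prime_dvd_prime_iff_eq hv.1.1.1 hw.1.1.1).1 h2
      rw [e] at h
      exact Or.inl ⟨e, Nat.eq_of_mul_eq_mul_left hw.1.1.1.pos h⟩
    · have e := (Nat.prime_dvd_prime_iff_eq hv.1.1.1 hw.1.2.1).1 h2
      rw [e, mul_comm w.1] at h
      exact Or.inr ⟨e, Nat.eq_of_mul_eq_mul_left hw.1.2.1.pos h⟩
  rw [← sum_filter_add_sum_filter_not (distinctPairs x) (fun v => v.1 < v.2), two_mul]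
  refine add_le_add (half _ (filter_subset _ _) fun v hv w hw h => ?_)
    (half _ (filter_subset _ _) fun v hv w hw h => ?_)
  all_goals
    simp only [coe_filter, Set.mem_ofPred_eq] at hv hw
    rcases key v hv.1 w hw.1 h with ⟨e1, e2⟩ | ⟨e1, e2⟩
    · exact Prod.ext e1 e2
    · have h1 := (mem_filter.1 hv.1).2
      omega

/-- **The pairs for one `k`.** -/
theorem exists_offdiag_le (k : ℕ) (hk : 1 ≤ k) {δ : ℝ} (hδ : 0 < δ) : ∃ C : ℝ, 0 ≤ C ∧
    ∀ x N : ℕ, 1 ≤ x → 1 ≤ N → (x : ℝ) ^ 4 ≤ (N : ℝ) ^ k →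
    ∀ {D : ℝ}, (∀ n ∈ Ioc 0 (N ^ k), (repCount (Icc 1 N) k n : ℝ) ≤ D) →
    D ≤ (x : ℝ) ^ (δ * (2 * k : ℕ)) →
      ∑ v ∈ distinctPairs x, |∑ a ∈ Ioc 0 N, rootResid v.1 a * rootResid v.2 a| ≤
        C * N * (x : ℝ) ^ (2 + 3 * δ - 2 / (2 * k : ℕ)) := by
  obtain ⟨B, hB, hpow⟩ := exists_two_pow_le hδ
  refine ⟨2 * (B * B), by positivity, fun x N hx hN hxN D hD hDx => ?_⟩
  have hx0 : (0 : ℝ) < x := Nat.cast_pos.2 hx
  have hex : ∀ v ∈ distinctPairs x, ∃ E : ℝ,
      |∑ a ∈ Ioc 0 N, rootResid v.1 a * rootResid v.2 a| ≤ E ∧ 0 ≤ E ∧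
        E ^ (2 * k) ≤ ((B * (x : ℝ) ^ δ) * (B * (x : ℝ) ^ δ)) ^ (2 * k) *
          charMoment (v.1 * v.2) N k := by
    intro v hv
    simp only [distinctPairs, mem_filter, mem_product, mem_primesTo] at hv
    have := Fact.mk hv.1.1.1
    have := Fact.mk hv.1.2.1
    obtain ⟨E, h1, h2, h3⟩ := exists_pair_le hv.2 N hk
    refine ⟨E, h1, h2, h3.trans (mul_le_mul_of_nonneg_right (pow_le_pow_left₀ (by positivity)
      (mul_le_mul (hpow x v.1 hv.1.1.1 hv.1.1.2) (hpow x v.2 hv.1.2.1 hv.1.2.2) (by positivity)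
        (by positivity)) _) ?_)⟩
    rw [charMoment, dif_neg (mul_ne_zero hv.1.1.1.ne_zero hv.1.2.1.ne_zero)]
    positivity
  choose! E hE1 hE0 hEp using hex
  refine (sum_le_sum hE1).trans ?_
  refine le_of_pow_le_pow_left₀ (show 2 * k ≠ 0 by omega) (by positivity) ?_
  obtain ⟨n, hn⟩ : ∃ n, 2 * k = n + 1 := ⟨2 * k - 1, by omega⟩
  have hD0 : 0 ≤ D := le_trans (Nat.cast_nonneg _)
    (hD 1 (mem_Ioc.2 ⟨one_pos, Nat.one_le_pow _ _ hN⟩))
  have hcard : ((distinctPairs x).card : ℝ) ≤ (x : ℝ) * x := by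
    rw [← Nat.cast_mul]
    refine Nat.cast_le.2 ((card_filter_le _ _).trans ?_)
    rw [card_product]
    exact Nat.mul_le_mul ((card_filter_le _ _).trans (by simp))
      ((card_filter_le _ _).trans (by simp))
  have h1 : (∑ v ∈ distinctPairs x, E v) ^ (2 * k) ≤
      ((x : ℝ) * x) ^ n * (((B * (x : ℝ) ^ δ) * (B * (x : ℝ) ^ δ)) ^ (2 * k) *
        (4 * (x : ℝ) ^ (δ * (2 * k : ℕ)) * (N : ℝ) ^ (2 * k))) := by
    rw [hn]
    refine (pow_sum_le_card_mul_sum_pow hE0 n).trans ?_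
    refine mul_le_mul (pow_le_pow_left₀ (Nat.cast_nonneg _) hcard n) ?_
      (sum_nonneg fun v hv => pow_nonneg (hE0 v hv) _) (by positivity)
    rw [← hn]
    refine (sum_le_sum hEp).trans ?_
    rw [← mul_sum]
    refine mul_le_mul_of_nonneg_left ((sum_moment_pairs_le N k x hD).trans ?_) (by positivity)
    have h4 : ((x * x : ℕ) : ℝ) * ((x * x : ℕ) : ℝ) = (x : ℝ) ^ 4 := by push_cast; ring
    rw [h4]
    calc 2 * (((N : ℝ) ^ k + (x : ℝ) ^ 4) * (D * (N : ℝ) ^ k))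
        ≤ 2 * ((2 * (N : ℝ) ^ k) * ((x : ℝ) ^ (δ * (2 * k : ℕ)) * (N : ℝ) ^ k)) := by
          gcongr
          linarith
      _ = _ := by rw [two_mul k, pow_add]; ring
  refine h1.trans ?_
  have h0 : (2 * (B * B) * (N : ℝ) * (x : ℝ) ^ (2 + 3 * δ - 2 / (2 * k : ℕ))) ^ (2 * k) =
      2 ^ (2 * k) * ((B * B) ^ (2 * k) * (N : ℝ) ^ (2 * k) *
        ((x : ℝ) ^ ((2 + 3 * δ - 2 / (2 * k : ℕ)) * (2 * k : ℕ)))) := by
    rw [Real.rpow_mul_natCast hx0.le]
    ring
  have e : (x : ℝ) ^ ((2 + 3 * δ - 2 / (2 * k : ℕ)) * (2 * k : ℕ)) =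
      ((x : ℝ) * x) ^ n * (((x : ℝ) ^ δ * (x : ℝ) ^ δ) ^ (2 * k) *
        (x : ℝ) ^ (δ * (2 * k : ℕ))) := by
    rw [mul_pow ((x : ℝ) ^ δ), ← Real.rpow_mul_natCast hx0.le δ, ← Real.rpow_add hx0,
      ← Real.rpow_add hx0, ← pow_two, ← pow_mul, ← Real.rpow_natCast (x : ℝ) (2 * n),
      ← Real.rpow_add hx0]
    congr 1
    have h : ((2 * k : ℕ) : ℝ) = (n : ℝ) + 1 := by rw [hn]; push_cast; ring
    have h0 : ((n : ℝ) + 1) ≠ 0 := by positivity
    rw [h]
    push_cast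
    field_simp
    ring
  rw [h0, e]
  have h2k : (4 : ℝ) ≤ 2 ^ (2 * k) := by
    rw [show (4 : ℝ) = 2 ^ 2 by norm_num]
    exact pow_le_pow_right₀ one_le_two (by omega)
  calc ((x : ℝ) * x) ^ n * (((B * (x : ℝ) ^ δ) * (B * (x : ℝ) ^ δ)) ^ (2 * k) *
        (4 * (x : ℝ) ^ (δ * (2 * k : ℕ)) * (N : ℝ) ^ (2 * k)))
      = 4 * ((B * B) ^ (2 * k) * (N : ℝ) ^ (2 * k) * (((x : ℝ) * x) ^ n *
        (((x : ℝ) ^ δ * (x : ℝ) ^ δ) ^ (2 * k) * (x : ℝ) ^ (δ * (2 * k : ℕ))))) := by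
        rw [show (B * (x : ℝ) ^ δ) * (B * (x : ℝ) ^ δ) = (B * B) * ((x : ℝ) ^ δ * (x : ℝ) ^ δ) by
          ring, mul_pow (B * B)]
        ring
    _ ≤ _ := mul_le_mul_of_nonneg_right h2k (by positivity)

/-- Both ranges of `N`. -/
theorem exists_uniform_offdiag {ε : ℝ} (hε : 0 < ε) : ∃ κ C : ℝ, 0 < κ ∧ 0 ≤ C ∧
    ∀ᶠ x : ℕ in atTop, ∀ N : ℕ, (x : ℝ) ^ ε ≤ N →
      ∑ v ∈ distinctPairs x, |∑ a ∈ Ioc 0 N, rootResid v.1 a * rootResid v.2 a| ≤
        C * N * (x : ℝ) ^ (2 - κ) := by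
  obtain ⟨K, hK⟩ : ∃ K : ℕ, K = ⌈4 / ε⌉₊ + 1 := ⟨_, rfl⟩
  have hK1 : 1 ≤ K := by omega
  have hKr : (1 : ℝ) ≤ K := Nat.one_le_cast.2 hK1
  obtain ⟨δ, hδ⟩ : ∃ δ : ℝ, δ = 1 / (8 * K) := ⟨_, rfl⟩
  have hδ0 : 0 < δ := hδ ▸ by positivity
  obtain ⟨η, hη⟩ : ∃ η : ℝ, η = δ / (4 * K) := ⟨_, rfl⟩
  obtain ⟨A, hA, hdiv⟩ := RepresentationBound.card_divisors_isBigO η (hη ▸ by positivity)
  obtain ⟨C₁, hC₁, h₁⟩ := exists_offdiag_le 1 le_rfl hδ0
  obtain ⟨C₂, hC₂, h₂⟩ := exists_offdiag_le K hK1 hδ0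
  refine ⟨5 / (8 * K), max C₁ C₂, by positivity, le_max_of_le_left hC₁, ?_⟩
  have hbig : ∀ᶠ x : ℕ in atTop, A ^ K ≤ (x : ℝ) ^ (δ * K) :=
    ((tendsto_rpow_atTop (by positivity)).comp tendsto_natCast_atTop_atTop).eventually_ge_atTop _
  filter_upwards [hbig, eventually_ge_atTop 2] with x hx hx2 N hN
  have hx1 : (1 : ℝ) ≤ x := Nat.one_le_cast.2 (by omega)
  have hN1 : 1 ≤ N := by
    have h := (Real.one_le_rpow hx1 hε.le).trans hN
    exact_mod_cast h
  by_cases hcase : (x : ℝ) ^ 4 ≤ N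
  · refine (h₁ x N (by omega) hN1 (by simpa using hcase) (D := 1) (fun n hn => ?_)
      (Real.one_le_rpow hx1 (by positivity))).trans ?_
    · rw [pow_one, mem_Ioc] at hn
      rw [repCount, sum_eq_single n]
      · simp [repCount, Nat.div_self hn.1]
      · intro l hl hne
        rw [repCount]
        split_ifs with hd h1
        · exact absurd (by rw [← Nat.mul_div_cancel' hd, h1, mul_one]) hne.symm
        all_goals rfl
      · exact fun h => absurd (mem_Icc.2 ⟨hn.1, hn.2⟩) h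
    · refine mul_le_mul (mul_le_mul_of_nonneg_right (le_max_left _ _) (Nat.cast_nonneg _))
        (Real.rpow_le_rpow_of_exponent_le hx1 ?_) (by positivity) (by positivity)
      rw [hδ]
      push_cast
      have h4 : 1 / (8 * (K : ℝ)) ≤ 1 / 8 :=
        one_div_le_one_div_of_le (by norm_num) (by linarith)
      have e : 5 / (8 * (K : ℝ)) = 5 * (1 / (8 * K)) := by ring
      linarith
  · rw [not_le] at hcase
    have hxK : (x : ℝ) ^ 4 ≤ (N : ℝ) ^ K := by
      refine le_trans ?_ (pow_le_pow_left₀ (by positivity) hN K)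
      rw [← Real.rpow_mul_natCast (by linarith), ← Real.rpow_natCast (x : ℝ) 4]
      refine Real.rpow_le_rpow_of_exponent_le hx1 ?_
      have h : 4 / ε ≤ (K : ℝ) := (Nat.le_ceil _).trans (Nat.cast_le.2 (by omega))
      rw [div_le_iff₀ hε] at h
      push_cast
      linarith
    refine (h₂ x N (by omega) hN1 hxK (D := (x : ℝ) ^ (δ * (2 * K : ℕ))) (fun n hn => ?_)
      le_rfl).trans ?_
    · rw [mem_Ioc] at hn
      refine (Nat.cast_le.2 (repCount_Icc_le N K n)).trans ?_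
      rw [Nat.cast_pow]
      refine (pow_le_pow_left₀ (Nat.cast_nonneg _) (hdiv n hn.1.ne') K).trans ?_
      rw [mul_pow]
      calc A ^ K * ((n : ℝ) ^ η) ^ K ≤ (x : ℝ) ^ (δ * K) * (x : ℝ) ^ (δ * K) := by
            refine mul_le_mul hx ?_ (by positivity) (by positivity)
            rw [← Real.rpow_mul_natCast (Nat.cast_nonneg _)]
            have hn' : (n : ℝ) ≤ (x : ℝ) ^ ((4 * K : ℕ) : ℝ) := by
              rw [Real.rpow_natCast, pow_mul]
              refine le_trans (Nat.cast_le.2 hn.2) ?_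
              rw [Nat.cast_pow]
              exact pow_le_pow_left₀ (Nat.cast_nonneg N) hcase.le K
            refine (Real.rpow_le_rpow (Nat.cast_nonneg n) hn' (by rw [hη]; positivity)).trans
              (le_of_eq ?_)
            rw [← Real.rpow_mul (by linarith)]
            congr 1
            rw [hη]
            push_cast
            field_simp
        _ = _ := by
            rw [← Real.rpow_add (by linarith)]
            push_cast
            ring_nf
    · refine mul_le_mul (mul_le_mul_of_nonneg_right (le_max_right _ _) (Nat.cast_nonneg _))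
        (Real.rpow_le_rpow_of_exponent_le hx1 ?_) (by positivity) (by positivity)
      rw [hδ]
      push_cast
      have e : 2 + 3 * (1 / (8 * (K : ℝ))) - 2 / (2 * K) = 2 - 5 / (8 * K) := by
        field_simp
        ring
      linarith

/-- **Artin's conjecture for almost all bases.** -/
theorem eventually_almost_all {ε η : ℝ} (hε : 0 < ε) (hη : 0 < η) :
    ∀ᶠ x : ℕ in atTop, ∀ N : ℕ, (x : ℝ) ^ ε ≤ N →
      (#((Ioc 0 N).filter fun a => η * Nat.primeCounting x <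
          |(#((primesTo x).filter fun p => orderOf (a : ZMod p) = p - 1) : ℝ) -
            artinConst * Nat.primeCounting x|) : ℝ) ≤ η * N := by
  obtain ⟨κ, C, hκ, hC, hoff⟩ := exists_uniform_offdiag hε
  have hA := artinConst_pos
  obtain ⟨τ, hτ⟩ : ∃ τ, τ = min (1 / 2) (η / (4 * (1 + artinConst))) := ⟨_, rfl⟩
  have hτ0 : 0 < τ := hτ ▸ lt_min (by norm_num) (by positivity)
  have hτ1 : τ ≤ 1 / 2 := hτ ▸ min_le_left _ _
  have hτ2 : τ * (4 * (1 + artinConst)) ≤ η :=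
    (le_div_iff₀ (by positivity)).1 (hτ ▸ min_le_right _ _)
  have hcard : ∀ x, Nat.primeCounting x = (primesTo x).card := fun x => by
    rw [Nat.primeCounting, Nat.primeCounting', Nat.count_eq_card_filter_range]
    exact congrArg Finset.card (by ext p; simp [mem_primesTo]; tauto)
  have hpi : Tendsto (fun x : ℕ => ((primesTo x).card : ℝ) * Real.log x / x) atTop (𝓝 1) := by
    simpa [piOne_eq_card] using tendsto_piOne one_pos
  have hsmall : ∀ᶠ x : ℕ in atTop,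
      ((x : ℝ) * (3 + 2 * Real.log x) + C * (x : ℝ) ^ (2 - κ)) * Real.log x ^ 2 / (x : ℝ) ^ 2 ≤
        η ^ 3 / 16 := by
    have hl : ∀ {r : ℝ}, 0 < r → ∀ m : ℕ,
        Tendsto (fun x : ℕ => Real.log (x : ℝ) ^ m / (x : ℝ) ^ r) atTop (𝓝 0) := fun hr m => by
      have h := (isLittleO_log_rpow_rpow_atTop (m : ℝ) hr).tendsto_div_nhds_zero.comp
        tendsto_natCast_atTop_atTop
      simpa [Function.comp_def, Real.rpow_natCast] using h
    have h := (((hl one_pos 2).const_mul 3).add ((hl one_pos 3).const_mul 2)).add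
      ((hl hκ 2).const_mul C)
    simp only [add_zero, mul_zero] at h
    filter_upwards [h.eventually (eventually_le_nhds (show (0 : ℝ) < η ^ 3 / 16 by positivity)),
      eventually_ge_atTop 1] with x hx hx1
    refine le_trans (le_of_eq ?_) hx
    have hx0 : (0 : ℝ) < x := Nat.cast_pos.2 hx1
    rw [Real.rpow_one, Real.rpow_sub hx0, Real.rpow_two]
    field_simp
  filter_upwards [hoff, hsmall, Metric.tendsto_nhds.1 tendsto_genShare τ hτ0,
    Metric.tendsto_nhds.1 hpi τ hτ0, eventually_ge_atTop 2] with x hx hs hg hp hx2 N hN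
  rw [hcard]
  rw [Real.dist_eq, abs_lt] at hg hp
  have hx0 : (0 : ℝ) < x := Nat.cast_pos.2 (by omega)
  have hL : 0 < Real.log x := Real.log_pos (Nat.one_lt_cast.2 (by omega))
  obtain ⟨v, hv⟩ : ∃ v : ℝ, v = (x : ℝ) / Real.log x := ⟨_, rfl⟩
  have hv0 : 0 < v := hv ▸ div_pos hx0 hL
  obtain ⟨P, hP⟩ : ∃ P : ℝ, P = (primesTo x).card := ⟨_, rfl⟩
  obtain ⟨G, hG⟩ : ∃ G, G = ∑ p ∈ primesTo x, genShare (p - 1) := ⟨_, rfl⟩
  rw [← hP] at hp ⊢
  rw [← hG] at hg
  have e : ∀ y : ℝ, y * Real.log x / x = y / v := fun y => by rw [hv, div_div_eq_mul_div]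
  rw [e] at hg hp
  rw [sub_lt_iff_lt_add, div_lt_iff₀ hv0, lt_sub_iff_add_lt, lt_div_iff₀ hv0] at hg hp
  have hhalf : v / 2 ≤ P := by nlinarith
  have hP0 : 0 < P := by linarith
  have hGA : |G - artinConst * P| ≤ η * P / 2 := by
    have := mul_le_mul_of_nonneg_right hτ2 hv0.le
    have := mul_le_mul_of_nonneg_left hp.1.le hA.le
    have := mul_le_mul_of_nonneg_left hp.2.le hA.le
    have := mul_le_mul_of_nonneg_left hhalf hη.le
    rw [abs_le]
    constructor <;> linarith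
  obtain ⟨S, hS⟩ : ∃ S, S = (Ioc 0 N).filter fun a => η * P <
      |(#((primesTo x).filter fun p => orderOf (a : ZMod p) = p - 1) : ℝ) - artinConst * P| :=
    ⟨_, rfl⟩
  rw [← hS]
  have hlow : (S.card : ℝ) * (η * P / 2) ^ 2 ≤ baseVariance x N := by
    rw [← nsmul_eq_mul, ← sum_const]
    refine le_trans (sum_le_sum fun a ha => ?_) (sum_le_sum_of_subset_of_nonneg
      (hS ▸ filter_subset _ _) fun a _ _ => sq_nonneg _)
    rw [hS, mem_filter] at ha
    have hsum : ∑ p ∈ primesTo x, (rootInd p a - genShare (p - 1)) =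
        (#((primesTo x).filter fun p => orderOf (a : ZMod p) = p - 1) : ℝ) - G := by
      simp only [rootInd, sum_sub_distrib, sum_boole, ← hG]
    rw [hsum, sq_le_sq, abs_of_pos (show 0 < η * P / 2 by positivity)]
    have h := abs_sub_le (#((primesTo x).filter fun p => orderOf (a : ZMod p) = p - 1) : ℝ) G
      (artinConst * P)
    linarith [ha.2]
  have hup := baseVariance_le x N
  rw [← hP] at hup
  have hPx : P ≤ x := by
    rw [hP]
    exact Nat.cast_le.2 ((card_filter_le _ _).trans (by simp))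
  have hN0 : (0 : ℝ) ≤ N := Nat.cast_nonneg N
  have hV : baseVariance x N ≤
      N * ((x : ℝ) * (3 + 2 * Real.log x) + C * (x : ℝ) ^ (2 - κ)) := by
    refine hup.trans ((add_le_add le_rfl (hx N hN)).trans ?_)
    have := mul_le_mul_of_nonneg_left hPx (show (0 : ℝ) ≤ N * (3 + 2 * Real.log x) by positivity)
    nlinarith
  rw [div_le_iff₀ (by positivity)] at hs
  have h3 : (S.card : ℝ) * (η * P / 2) ^ 2 * Real.log x ^ 2 ≤ N * (η ^ 3 / 16 * (x : ℝ) ^ 2) :=
    (mul_le_mul_of_nonneg_right (hlow.trans hV) (sq_nonneg _)).trans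
      (by rw [mul_assoc]; exact mul_le_mul_of_nonneg_left hs hN0)
  have h4 : η ^ 2 * (x : ℝ) ^ 2 / 16 ≤ (η * P / 2) ^ 2 * Real.log x ^ 2 := by
    rw [show (η * P / 2) ^ 2 * Real.log x ^ 2 = (η * P / 2 * Real.log x) ^ 2 by ring]
    refine le_trans (le_of_eq ?_) (pow_le_pow_left₀ (by positivity)
      (mul_le_mul_of_nonneg_right
        (show η * (v / 2) / 2 ≤ η * P / 2 by gcongr) hL.le) 2)
    rw [hv]
    field_simp
    ring
  refine le_of_mul_le_mul_right ?_ (show 0 < η ^ 2 * (x : ℝ) ^ 2 / 16 by positivity)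
  refine (mul_le_mul_of_nonneg_left h4 (Nat.cast_nonneg _)).trans ?_
  linarith

end FA.ArtinAlmostAll

end
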