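import Fermat.Agent.ArtinAverage.Main
import Fermat.Agent.AbelianQuartic.Tally

/-!
# The covariance of the primitive roots to two prime moduli

For `p ≠ q` it is a sum of sums of primitive characters modulo `p q`, up to the multiples of `p`
and of `q`.
-/

set_option autoImplicit false

noncomputable section

namespace FA.ArtinAlmostAll

open Finset FA.FermatCount FA.BurgessGeneral FA.ArtinAverage
open FA.AlmostAllRoot (repCount)
open FA.AbelianQuartic (joinChar conductor_joinChar joinChar_injective)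
open FA.BombieriVinogradov (primChars mem_primChars)
open DirichletCharacter (changeLevel changeLevel_eq_cast_of_dvd' conductor_dvd_level
  eq_one_iff_conductor_eq_one)
open scoped Classical

/-- `1` if `a` is a primitive root modulo `p`. -/
def rootInd (p a : ℕ) : ℝ := if orderOf (a : ZMod p) = p - 1 then 1 else 0

/-- `1` if `a` is prime to `p`. -/
def unitInd (p a : ℕ) : ℝ := if p ∣ a then 0 else 1

/-- What is left of the indicator after its mean. -/
def rootResid (p a : ℕ) : ℝ := rootInd p a - genShare (p - 1) * unitInd p a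

theorem genShare_pred_mem (n : ℕ) : 0 ≤ genShare n ∧ genShare n ≤ 1 :=
  ⟨prod_nonneg fun _ hq => (factor_bounds (Nat.prime_of_mem_primeFactors hq)).1,
    (prod_sub_le fun _ hq => Nat.prime_of_mem_primeFactors hq).2⟩

theorem abs_rootResid_le (p a : ℕ) : |rootResid p a| ≤ 1 := by
  obtain ⟨h0, h1⟩ := genShare_pred_mem (p - 1)
  rw [rootResid, rootInd, unitInd, abs_le]
  split_ifs <;> constructor <;> linarith

theorem abs_sub_genShare_le (p a : ℕ) : |rootInd p a - genShare (p - 1)| ≤ 1 := by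
  obtain ⟨h0, h1⟩ := genShare_pred_mem (p - 1)
  rw [rootInd, abs_le]
  split_ifs <;> constructor <;> linarith

theorem abs_pair_sub_le (p q a : ℕ) :
    |(rootInd p a - genShare (p - 1)) * (rootInd q a - genShare (q - 1)) -
        rootResid p a * rootResid q a| ≤
      (if p ∣ a then 1 else 0) + if q ∣ a then 1 else 0 := by
  obtain ⟨u, hu⟩ : ∃ u, u = genShare (p - 1) * (1 - unitInd p a) := ⟨_, rfl⟩
  obtain ⟨v, hv⟩ : ∃ v, v = genShare (q - 1) * (1 - unitInd q a) := ⟨_, rfl⟩
  have e1 : rootInd p a - genShare (p - 1) = rootResid p a - u := by rw [hu, rootResid]; ring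
  have e2 : rootInd q a - genShare (q - 1) = rootResid q a - v := by rw [hv, rootResid]; ring
  have hu' : |u| ≤ if p ∣ a then 1 else 0 := by
    obtain ⟨h0, h1⟩ := genShare_pred_mem (p - 1)
    rw [hu, unitInd, abs_le]
    split_ifs <;> constructor <;> linarith
  have hv' : |v| ≤ if q ∣ a then 1 else 0 := by
    obtain ⟨h0, h1⟩ := genShare_pred_mem (q - 1)
    rw [hv, unitInd, abs_le]
    split_ifs <;> constructor <;> linarith
  have e : (rootInd p a - genShare (p - 1)) * (rootInd q a - genShare (q - 1)) -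
      rootResid p a * rootResid q a =
        -(rootResid p a * v) - u * (rootInd q a - genShare (q - 1)) := by
    rw [e1, e2]
    ring
  rw [e]
  refine (abs_sub _ _).trans ?_
  rw [abs_neg, abs_mul, abs_mul, add_comm (if p ∣ a then (1 : ℝ) else 0)]
  exact add_le_add
    ((mul_le_of_le_one_left (abs_nonneg v) (abs_rootResid_le p a)).trans hv')
    ((mul_le_of_le_one_right (abs_nonneg u) (abs_sub_genShare_le q a)).trans hu')

variable {p q : ℕ} [Fact p.Prime] [Fact q.Prime]

/-- The residue by characters. -/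
theorem rootResid_eq (a : ℕ) : (rootResid p a : ℂ) = ∑ T ∈ (p - 1).primeFactors.powerset,
    (-1 : ℂ) ^ T.card * ((∑ χ ∈ (killed (ZMod p) (∏ r ∈ T, r)).erase 1, χ (a : ZMod p)) /
      ((∏ r ∈ T, r : ℕ) : ℂ)) := by
  have hind : (rootInd p a : ℂ) = if NoPrimePower (a : ZMod p) then 1 else 0 := by
    rw [rootInd, apply_ite (fun t : ℝ => (t : ℂ))]
    push_cast
    exact if_congr (noPrimePower_iff _).symm rfl rfl
  have hone : (1 : MulChar (ZMod p) ℂ) (a : ZMod p) = (unitInd p a : ℂ) := by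
    rw [unitInd]
    split_ifs with h
    · rw [(ZMod.natCast_eq_zero_iff a p).2 h, MulChar.map_zero, Complex.ofReal_zero]
    · rw [MulChar.one_apply (Ne.isUnit fun h0 => h ((ZMod.natCast_eq_zero_iff a p).1 h0)),
        Complex.ofReal_one]
  have hg : ((genShare (p - 1) : ℝ) : ℂ) = ∏ r ∈ (p - 1).primeFactors, (1 + -(1 / (r : ℂ))) := by
    rw [genShare, Complex.ofReal_prod]
    exact prod_congr rfl fun r _ => by push_cast; ring
  rw [rootResid, Complex.ofReal_sub, Complex.ofReal_mul, hind, indicator_eq, hg, prod_one_add,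
    sum_mul, ← sum_sub_distrib]
  refine sum_congr rfl fun T _ => ?_
  rw [← add_sum_erase _ _ one_mem_killed, hone, prod_neg, prod_div_distrib, prod_const_one,
    Nat.cast_prod]
  ring

theorem joinChar_apply (χ : DirichletCharacter ℂ p) (ψ : DirichletCharacter ℂ q) (a : ℕ) :
    joinChar p q (χ, ψ) (a : ZMod (p * q)) = χ (a : ZMod p) * ψ (a : ZMod q) := by
  show (changeLevel (dvd_mul_right p q) χ * changeLevel (dvd_mul_left q p) ψ)
    (a : ZMod (p * q)) = _
  rw [MulChar.mul_apply]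
  by_cases h : a.Coprime (p * q)
  · have hi : IsCoprime (a : ℤ) ((p * q : ℕ) : ℤ) := Nat.isCoprime_iff_coprime.2 h
    have h1 := changeLevel_eq_cast_of_dvd' χ (dvd_mul_right p q) (a := (a : ℤ)) hi
    have h2 := changeLevel_eq_cast_of_dvd' ψ (dvd_mul_left q p) (a := (a : ℤ)) hi
    simp only [Int.cast_natCast] at h1 h2
    rw [h1, h2]
  · rw [MulChar.map_nonunit _ fun hu => h ((ZMod.isUnit_iff_coprime a (p * q)).1 hu), zero_mul]
    rw [Nat.coprime_mul_iff_right, not_and_or] at h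
    rcases h with h | h
    · rw [MulChar.map_nonunit χ fun hu => h ((ZMod.isUnit_iff_coprime a p).1 hu), zero_mul]
    · rw [MulChar.map_nonunit ψ fun hu => h ((ZMod.isUnit_iff_coprime a q).1 hu), mul_zero]

/-- **The covariance for one pair.** -/
theorem exists_pair_le (hpq : p ≠ q) (N : ℕ) {k : ℕ} (hk : 1 ≤ k) :
    ∃ E : ℝ, |∑ a ∈ Ioc 0 N, rootResid p a * rootResid q a| ≤ E ∧ 0 ≤ E ∧
      E ^ (2 * k) ≤
        ((2 : ℝ) ^ (p - 1).primeFactors.card * 2 ^ (q - 1).primeFactors.card) ^ (2 * k) *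
          charMoment (p * q) N k := by
  have hp := (Fact.out : p.Prime)
  have hq := (Fact.out : q.Prime)
  have hc : p.Coprime q := (Nat.coprime_primes hp hq).2 hpq
  obtain ⟨Q, hQ⟩ : ∃ Q, Q = (p - 1).primeFactors.powerset ×ˢ (q - 1).primeFactors.powerset :=
    ⟨_, rfl⟩
  obtain ⟨A, hA⟩ : ∃ A : Finset ℕ × Finset ℕ →
      Finset (MulChar (ZMod p) ℂ × MulChar (ZMod q) ℂ), A = fun T =>
        (killed (ZMod p) (∏ r ∈ T.1, r)).erase 1 ×ˢ (killed (ZMod q) (∏ r ∈ T.2, r)).erase 1 :=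
    ⟨_, rfl⟩
  obtain ⟨D, hD⟩ : ∃ D : Finset ℕ × Finset ℕ → ℕ, D = fun T => (∏ r ∈ T.1, r) * ∏ r ∈ T.2, r :=
    ⟨_, rfl⟩
  obtain ⟨e, he⟩ : ∃ e : Finset ℕ × Finset ℕ → ℝ, e = fun T => ((D T : ℕ) : ℝ)⁻¹ *
      ∑ v ∈ A T, ‖∑ a ∈ Ioc 0 N, joinChar p q v (a : ZMod (p * q))‖ := ⟨_, rfl⟩
  have hT : ∀ {m : ℕ} {T : Finset ℕ}, T ∈ m.primeFactors.powerset →
      0 < ∏ r ∈ T, r ∧ (∏ r ∈ T, r) ∣ m := fun hT => by
    rw [mem_powerset] at hT
    exact ⟨prod_pos fun r hr => (Nat.prime_of_mem_primeFactors (hT hr)).pos,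
      (prod_dvd_prod_of_subset _ _ _ hT).trans (Nat.prod_primeFactors_dvd _)⟩
  have he0 : ∀ T ∈ Q, 0 ≤ e T := fun T _ => by rw [he]; positivity
  refine ⟨∑ T ∈ Q, e T, ?_, sum_nonneg he0, ?_⟩
  · rw [← Real.norm_eq_abs, ← Complex.norm_real, Complex.ofReal_sum]
    simp only [Complex.ofReal_mul, rootResid_eq]
    rw [sum_congr rfl fun (a : ℕ) _ => (sum_mul_sum _ _ _ _).trans (sum_product' _ _ _).symm,
      ← hQ, sum_comm]
    refine norm_sum_le_of_le _ fun T _ => ?_
    have hterm : ∀ a ∈ Ioc 0 N, (-1 : ℂ) ^ T.1.card *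
        ((∑ χ ∈ (killed (ZMod p) (∏ r ∈ T.1, r)).erase 1, χ (a : ZMod p)) /
          ((∏ r ∈ T.1, r : ℕ) : ℂ)) * ((-1 : ℂ) ^ T.2.card *
        ((∑ χ ∈ (killed (ZMod q) (∏ r ∈ T.2, r)).erase 1, χ (a : ZMod q)) /
          ((∏ r ∈ T.2, r : ℕ) : ℂ))) = (-1 : ℂ) ^ (T.1.card + T.2.card) * (((D T : ℕ) : ℂ)⁻¹ *
        ∑ v ∈ A T, joinChar p q v (a : ZMod (p * q))) := by
      intro a _
      rw [hA, hD, sum_product]
      simp only [joinChar_apply, ← mul_sum, ← sum_mul, Nat.cast_mul, pow_add, mul_inv]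
      ring
    rw [sum_congr rfl hterm, ← mul_sum, ← mul_sum, sum_comm, norm_mul, norm_pow, norm_neg,
      norm_one, one_pow, one_mul, norm_mul, norm_inv, Complex.norm_natCast, he]
    exact mul_le_mul_of_nonneg_left (norm_sum_le _ _) (by positivity)
  · obtain ⟨n, hn⟩ : ∃ n, 2 * k = n + 1 := ⟨2 * k - 1, by omega⟩
    have hne : p * q ≠ 0 := mul_ne_zero hp.ne_zero hq.ne_zero
    have hM0 : 0 ≤ charMoment (p * q) N k := by
      rw [charMoment, dif_neg hne]
      positivity
    have hone : ∀ T ∈ Q, e T ^ (2 * k) ≤ charMoment (p * q) N k := by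
      intro T hT'
      rw [hQ, mem_product] at hT'
      obtain ⟨hd, hdd⟩ := hT hT'.1
      obtain ⟨hd', hdd'⟩ := hT hT'.2
      rw [he]
      simp only
      rw [mul_pow, hn]
      refine (mul_le_mul_of_nonneg_left (pow_sum_le_card_mul_sum_pow
        (fun v _ => norm_nonneg _) n) (by positivity)).trans ?_
      have hcard : (((A T).card : ℕ) : ℝ) ≤ ((D T : ℕ) : ℝ) := by
        rw [hA, hD]
        simp only
        rw [card_product]
        refine Nat.cast_le.2 (Nat.mul_le_mul ((card_le_card (erase_subset _ _)).trans ?_)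
          ((card_le_card (erase_subset _ _)).trans ?_))
        · rw [card_killed, ZMod.card, Nat.gcd_eq_left hdd]
        · rw [card_killed, ZMod.card, Nat.gcd_eq_left hdd']
      have hd1 : (1 : ℝ) ≤ ((D T : ℕ) : ℝ) := by
        rw [hD]
        exact Nat.one_le_cast.2 (Nat.mul_pos hd hd')
      have hsum : ∑ v ∈ A T, ‖∑ a ∈ Ioc 0 N, joinChar p q v (a : ZMod (p * q))‖ ^ (n + 1) ≤
          charMoment (p * q) N k := by
        rw [charMoment, dif_neg hne, hn,
          ← sum_image (g := joinChar p q) (f := fun χ : DirichletCharacter ℂ (p * q) =>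
            ‖∑ a ∈ Ioc 0 N, χ (a : ZMod (p * q))‖ ^ (n + 1))
            fun v _ w _ h => joinChar_injective hc h]
        refine sum_le_sum_of_subset_of_nonneg (fun χ hχ => ?_) fun χ _ _ => by positivity
        rw [mem_primChars]
        obtain ⟨v, hv, rfl⟩ := mem_image.1 hχ
        rw [hA, mem_product, mem_erase, mem_erase] at hv
        show (joinChar p q v).conductor = p * q
        rw [show v = (v.1, v.2) from rfl, conductor_joinChar hc,
          ((Nat.dvd_prime hp).1 (conductor_dvd_level v.1)).resolve_left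
            fun h => hv.1.1 (eq_one_iff_conductor_eq_one.2 h),
          ((Nat.dvd_prime hq).1 (conductor_dvd_level v.2)).resolve_left
            fun h => hv.2.1 (eq_one_iff_conductor_eq_one.2 h)]
      refine (mul_le_mul_of_nonneg_left (mul_le_mul (pow_le_pow_left₀ (Nat.cast_nonneg _) hcard n)
        hsum (sum_nonneg fun χ _ => by positivity) (by positivity)) (by positivity)).trans ?_
      rw [← mul_assoc]
      refine mul_le_of_le_one_left hM0 ?_
      rw [inv_pow, inv_mul_le_iff₀ (by positivity), mul_one]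
      exact pow_le_pow_right₀ hd1 (by omega)
    rw [hn]
    refine (pow_sum_le_card_mul_sum_pow he0 n).trans ?_
    have hQcard : (Q.card : ℝ) =
        2 ^ (p - 1).primeFactors.card * 2 ^ (q - 1).primeFactors.card := by
      rw [hQ, card_product, card_powerset, card_powerset]
      push_cast
      rfl
    rw [← hQcard, pow_succ _ n, mul_assoc, ← hn]
    refine mul_le_mul_of_nonneg_left ((sum_le_card_nsmul _ _ _ hone).trans (le_of_eq ?_))
      (by positivity)
    rw [nsmul_eq_mul]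

/-- The moments over any set of moduli `≤ Q`. -/
theorem sum_charMoment_subset_le (N k Q : ℕ) {s : Finset ℕ} (hs : s ⊆ Icc 1 Q) {D : ℝ}
    (hD : ∀ n ∈ Ioc 0 (N ^ k), (repCount (Icc 1 N) k n : ℝ) ≤ D) :
    ∑ m ∈ s, charMoment m N k ≤ ((N : ℝ) ^ k + (Q : ℝ) * Q) * (D * (N : ℝ) ^ k) := by
  have hls := FA.BarbanDavenportHalberstam.largeSieve_chars_sharp Q 0 (N ^ k)
    (fun n => (repCount (Icc 1 N) k n : ℂ))
  simp only [zero_add, Complex.norm_natCast] at hls
  have hrhs : ∑ n ∈ Ioc 0 (N ^ k), (repCount (Icc 1 N) k n : ℝ) ^ 2 ≤ D * (N : ℝ) ^ k := by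
    have h := sum_Icc_pow N (fun _ => (1 : ℕ)) rfl (fun _ _ => rfl) k
    simp only [sum_const, Nat.card_Icc, Nat.add_sub_cancel, smul_eq_mul, mul_one, Nat.cast_id] at h
    have e : ((∑ n ∈ Ioc 0 (N ^ k), repCount (Icc 1 N) k n : ℕ) : ℝ) = (N : ℝ) ^ k := by
      rw [← h, Nat.cast_pow]
    rw [← e, Nat.cast_sum, mul_sum]
    refine sum_le_sum fun n hn => ?_
    rw [pow_two]
    exact mul_le_mul_of_nonneg_right (hD n hn) (Nat.cast_nonneg _)
  rw [Nat.cast_pow] at hls
  refine le_trans ?_ (hls.trans (mul_le_mul_of_nonneg_left hrhs (by positivity)))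
  refine le_trans (sum_le_sum (g := fun m : ℕ => (m : ℝ) / m.totient * ∑ χ ∈ primChars m,
      ‖∑ n ∈ Ioc 0 (N ^ k), (repCount (Icc 1 N) k n : ℂ) * χ (n : ZMod m)‖ ^ 2) fun m hm => ?_)
    (sum_le_sum_of_subset_of_nonneg hs fun m _ _ => by positivity)
  have hm1 : 0 < m := (mem_Icc.1 (hs hm)).1
  rw [charMoment, dif_neg hm1.ne']
  have hratio : (1 : ℝ) ≤ (m : ℝ) / m.totient :=
    (one_le_div (Nat.cast_pos.2 (Nat.totient_pos.2 hm1))).2
      (Nat.cast_le.2 (Nat.totient_le m))
  refine le_trans (le_of_eq ?_) (le_mul_of_one_le_left (sum_nonneg fun _ _ => sq_nonneg _) hratio)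
  refine sum_congr rfl fun χ _ => ?_
  rw [← sum_Icc_pow N (fun n => χ (n : ZMod m)) (by simp) (fun a b => by simp) k, norm_pow,
    ← pow_mul, mul_comm k 2, show Icc 1 N = Ioc 0 N from rfl]

end FA.ArtinAlmostAll

end
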